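import Fermat.Agent.Cofaith.Char
import Fermat.Agent.X0Emb.EmbData
import Fermat.Agent.GalRep.JZ4_Bridge
import Fermat.Agent.FF.Construct

/-!
# Every torsion class of `J₀(N)` is related to a parabolic character of `Γ₀(N)`
-/

set_option autoImplicit false

open UpperHalfPlane Function Filter Topology AlgebraicCurve WithZero ModularCurve Asymptotics
open CongruenceSubgroup
open scoped Manifold MatrixGroups IntermediateField

noncomputable section

namespace Fermat.Agent.Cofaith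

open Fermat.Agent.X0Emb Fermat.Agent.X0Deg Fermat.Agent.FFOrb Fermat.Agent.ModFun
open Fermat.Agent.GalRep Fermat.Agent.FF

local notation "KQ" => AlgebraicClosure ℚ

/-- The function field of `X₀(N)` is a function field. -/
theorem isFF_bar (N : ℕ) [NeZero N] : IsFF KQ (modularFunctionFieldBar N) := by
  have : Finite (SL(2, ℤ) ⧸ Gamma0 N) := Subgroup.finite_quotient_of_finiteIndex
  have := Fintype.ofFinite (SL(2, ℤ) ⧸ Gamma0 N)
  have := (embData N).upper.1
  exact IsFF.of_finite (embData N).transcendental_jF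

/-- **Existence of the character.** Every `n`-torsion class is related to a character which is
trivial on parabolic elements. -/
theorem exists_rel (N : ℕ) [NeZero N] {n : ℕ} (hn : n ≠ 0) (x : JZero N) (hx : n • x = 0) :
    ∃ χ : Gamma0 N →* ℂˣ, Rel iota N n x χ ∧ χ ^ n = 1 ∧
      ∀ γ : Gamma0 N, ((γ : SL(2, ℤ)) : Matrix (Fin 2) (Fin 2) ℤ).trace ^ 2 = 4 → χ γ = 1 := by
  have := isFF_bar N
  set D := embData N with hD
  obtain ⟨h, hK⟩ := exists_isKummer hx
  obtain ⟨a, b, hb, hab⟩ := D.frac h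
  have hb' : (b : modularFunctionFieldBar N) ≠ 0 := fun h => hb (Subtype.ext h)
  set c : D.A := a * b ^ (n - 1) with hc
  have hcF : (c : modularFunctionFieldBar N) = h * (b : modularFunctionFieldBar N) ^ n := by
    obtain ⟨m, rfl⟩ := Nat.exists_eq_succ_of_ne_zero hn
    rw [hc]
    simp only [Nat.succ_eq_add_one, Nat.add_sub_cancel]
    rw [pow_succ', ← mul_assoc, hab]
    rfl
  have hK' : IsKummer n x (c : modularFunctionFieldBar N) := by
    rw [hcF]
    exact hK.mul_pow hb'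
  have hc0 : c ≠ 0 := fun h0 => hK'.ne_zero (congrArg Subtype.val h0)
  obtain ⟨g, hg, hgn⟩ := exists_root D hn hc0 hK'.dvd D.x0
  have hstab : ∀ γ : Gamma0 N, (γ : SL(2, ℤ)) • D.x0 = D.x0 := by
    intro γ
    show (γ : SL(2, ℤ)) • (QuotientGroup.mk 1 : SL(2, ℤ) ⧸ Gamma0 N) = QuotientGroup.mk 1
    rw [MulAction.Quotient.smul_mk, smul_eq_mul, mul_one]
    exact QuotientGroup.eq.mpr (by simpa using inv_mem γ.2)
  have hinv : ∀ (γ : Gamma0 N) (τ : ℍ),
      D.embA D.x0 c ((γ : SL(2, ℤ)) • τ) = D.embA D.x0 c τ := by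
    intro γ τ
    have h1 : D.embA D.x0 c ((γ : SL(2, ℤ)) • τ) = D.embA ((γ : SL(2, ℤ))⁻¹ • D.x0) c τ := by
      rw [D.embA_smul, Hol.smul_apply, inv_inv]
    rw [h1, inv_smul_eq_iff.mpr (hstab γ).symm]
  have hg0 : g ≠ 0 := by
    rintro rfl
    apply hc0
    apply D.embA_inj D.x0
    rw [map_zero]
    ext τ
    rw [← hgn, Pi.zero_apply, zero_pow hn]
    rfl
  -- the character
  have hex : ∀ γ : Gamma0 N, ∃ ζ : ℂ, ζ ^ n = 1 ∧ ∀ τ, g ((γ : SL(2, ℤ)) • τ) = ζ * g τ := by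
    intro γ
    obtain ⟨ζ, h1, h2⟩ := Fermat.Agent.EisChar.exists_smul_eq_of_pow_eq
      (mdiff_smul hg (γ : SL(2, ℤ))) hg hn (by
        funext τ
        rw [Pi.pow_apply, Pi.pow_apply, hgn, hgn, hinv])
    exact ⟨ζ, h1, fun τ => congrFun h2 τ⟩
  choose z hz1 hz2 using hex
  obtain ⟨τ₁, hτ₁⟩ := Function.ne_iff.mp hg0
  have hz0 : ∀ γ, z γ ≠ 0 := by
    intro γ h
    have := hz1 γ
    rw [h, zero_pow hn] at this
    exact zero_ne_one this
  let χ : Gamma0 N →* ℂˣ :=
    { toFun := fun γ => Units.mk0 (z γ) (hz0 γ)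
      map_one' := by
        ext
        have h1 := hz2 1 τ₁
        rw [OneMemClass.coe_one, one_smul] at h1
        rw [Units.val_mk0, Units.val_one]
        exact mul_right_cancel₀ hτ₁ (h1.symm.trans (one_mul _).symm)
      map_mul' := fun γ γ' => by
        ext
        have h1 := hz2 (γ * γ') τ₁
        rw [Subgroup.coe_mul, mul_smul, hz2, hz2, ← mul_assoc] at h1
        rw [Units.val_mul, Units.val_mk0, Units.val_mk0, Units.val_mk0]
        exact (mul_right_cancel₀ hτ₁ h1).symm }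
  have hχ : ∀ γ, ((χ γ : ℂˣ) : ℂ) = z γ := fun γ => rfl
  have hgrow : ModGrowth g := by
    intro δ
    obtain ⟨G, hG⟩ := D.embA_lexp (δ⁻¹ • D.x0) c
    refine growthInf_of_pow hn (H := D.embA (δ⁻¹ • D.x0) c) (fun τ => ?_)
      (LExp_growthInf (by exact_mod_cast Nat.pos_of_ne_zero (NeZero.ne N)) hG)
    rw [hgn, D.embA_smul, Hol.smul_apply, inv_inv]
  refine ⟨χ, ⟨c, g, hK', ⟨hg, hgrow, fun γ τ => ?_⟩, ?_⟩, ?_, ?_⟩
  · rw [hz2, hχ]
  · have h1 : (g ^ n : ℍ → ℂ) = D.embA D.x0 c := by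
      funext τ
      rw [Pi.pow_apply, hgn]
    rw [h1]
    exact D.embA_x0 c
  · ext γ
    rw [MonoidHom.pow_apply, Units.val_pow_eq_pow_val, hχ, hz1]
    rfl
  · intro γ hγ
    ext
    rw [hχ, Units.val_one]
    exact char_parabolic D hn hc0 hK'.dvd hg hgn (hstab γ) hγ (hz1 γ) (hz2 γ)

end Fermat.Agent.Cofaith
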