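import Fermat.Agent.Cofaith.Finite
import Fermat.Agent.HeckeComm.Galois

/-!
# The Eichler--Shimura input for `J₀(N)` from `SpecializationExists`
-/

set_option autoImplicit false

open CongruenceSubgroup
open scoped MatrixGroups

noncomputable section

namespace Fermat.Agent.Cofaith

open Fermat.Agent.GalRep ModularCurve ModularCurve.Period Fermat.Agent.HeckePar
open Fermat.Agent.X0Emb AlgebraicCurve

variable (N : ℕ) [NeZero N]

/-- The Hecke algebra commutes with the Galois group on `J₀(N)`. -/
theorem heckeAlg_smul_comm (t : HeckeAlg) (σ : GQ) (x : JZero N) :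
    (letI := heckeModuleBar N; t • (σ • x)) = σ • (letI := heckeModuleBar N; t • x) := by
  letI := heckeModuleBar N
  show t • (σ • x) = σ • (t • x)
  have hcomm := Fermat.Agent.HeckeComm.heckeOperatorsCommuteBar N
  induction t using MvPolynomial.induction_on generalizing x with
  | C a =>
    have h1 : ∀ y : JZero N, (MvPolynomial.C a : HeckeAlg) • y = a • y := fun y => by
      rw [← MvPolynomial.algebraMap_eq, eq_intCast, Int.cast_smul_eq_zsmul]
    rw [h1, h1, smul_comm]
  | add p q hp hq => rw [add_smul, add_smul, smul_add, hp, hq]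
  | mul_X p ℓ hp =>
    have h1 : ∀ y : JZero N, (MvPolynomial.X ℓ : HeckeAlg) • y = heckeOperatorBar N ℓ y := fun y =>
      heckeModuleBar_heckeGen_smul hcomm ℓ y
    rw [mul_smul, mul_smul, h1, h1, ← hp, Fermat.Agent.HeckeComm.heckeOperatorBar_smul]

theorem smulCommClass_JZero : letI := heckeModuleBar N; SMulCommClass GQ HeckeAlg (JZero N) := by
  letI := heckeModuleBar N
  exact ⟨fun σ t x => (heckeAlg_smul_comm N t σ x).symm⟩

/-- **The Eichler--Shimura input for `J₀(N)`.** -/
theorem esInput_JZero {p : ℕ} (hp : p.Prime) (S : Set ℕ)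
    (hNS : ∀ ℓ : ℕ, ℓ.Prime → ℓ ∣ N → ℓ ∈ S) :
    letI := heckeModuleBar N
    haveI := smulCommClass_JZero N
    SpecializationExists (K := ℚ) (L := AlgebraicClosure ℚ) N p (JZero N) →
      ESInput N p S (JZero N) := by
  letI := heckeModuleBar N
  haveI := smulCommClass_JZero N
  intro hs
  exact esInput_of N p hp S (Fermat.Agent.HeckeComm.heckeOperatorsCommuteBar N) hNS hs
    fun n => exists_level N (pow_ne_zero n hp.ne_zero)

end Fermat.Agent.Cofaith

end
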