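import Fermat.Agent.Cofaith.Finite
import Fermat.Agent.Mazur.TrivBound
import Fermat.Agent.S22

/-!
# Weight bounds on the torsion of `J₀(N)`

A Hecke polynomial acting injectively on `S_2(Γ₀(N))` is invertible up to a nonzero integer on the
torsion of `J₀(N)`.
-/

set_option autoImplicit false

open CongruenceSubgroup Polynomial
open scoped MatrixGroups

noncomputable section

namespace Fermat.Agent.Cofaith

open Fermat.Agent.GalRep ModularCurve ModularCurve.Period Fermat.Agent.HeckePar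
open Fermat.Agent.X0Emb AlgebraicCurve

/-- An integral element `y` of a commutative ring with a faithful module on which `y` acts
injectively divides a nonzero integer. -/
theorem exists_mul_eq_natCast {A : Type*} [CommRing A] {y : A} (hy : IsIntegral ℤ y)
    (hinj : ∀ a : A, y * a = 0 → a = 0) : ∃ (a : A) (n : ℕ), n ≠ 0 ∧ a * y = n := by
  classical
  obtain ⟨P₀, hP₀, hP₀'⟩ := hy
  have hex : ∃ d : ℕ, ∃ P : ℤ[X], P ≠ 0 ∧ aeval y P = 0 ∧ P.natDegree = d :=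
    ⟨_, P₀, hP₀.ne_zero, hP₀', rfl⟩
  obtain ⟨P, hP, hPy, hd⟩ := Nat.find_spec hex
  have hmin : ∀ Q : ℤ[X], Q ≠ 0 → aeval y Q = 0 → P.natDegree ≤ Q.natDegree := by
    intro Q hQ hQy
    rw [hd]
    exact Nat.find_min' hex ⟨Q, hQ, hQy, rfl⟩
  have hdec : P = P.divX * X + C (P.coeff 0) := (divX_mul_X_add P).symm
  have h0 : P.coeff 0 ≠ 0 := by
    intro h0
    rw [h0, C_0, add_zero] at hdec
    have h1 : P.divX ≠ 0 := by
      intro h
      rw [h, zero_mul] at hdec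
      exact hP hdec
    have h2 : aeval y P.divX = 0 := by
      apply hinj
      rw [hdec, map_mul, aeval_X, mul_comm] at hPy
      exact hPy
    have h3 := hmin _ h1 h2
    have h4 : P.natDegree = P.divX.natDegree + 1 := by
      conv_lhs => rw [hdec]
      rw [natDegree_mul_X h1]
    omega
  have h1 : aeval y P.divX * y = -((P.coeff 0 : ℤ) : A) := by
    rw [hdec, map_add, map_mul, aeval_X, aeval_C, eq_intCast] at hPy
    exact eq_neg_of_add_eq_zero_left hPy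
  refine ⟨-(P.coeff 0).sign • aeval y P.divX, (P.coeff 0).natAbs, Int.natAbs_ne_zero.mpr h0, ?_⟩
  rw [smul_mul_assoc, h1, zsmul_eq_mul, Int.cast_neg, neg_mul_neg, ← Int.cast_mul,
    Int.sign_mul_self_eq_natAbs]
  simp

variable (N : ℕ) [NeZero N] (S : Set ℕ)

theorem evS_surjective : Function.Surjective (evS N S) := by
  intro y
  obtain ⟨y, hy⟩ := y
  have key : ∀ z ∈ CuspForm.heckeAlgebra N 2 S, ∃ t : HeckeAlgS S,
      ((evS N S t : CuspForm.heckeAlgebra N 2 S) : Module.End ℂ (CuspForm (Gamma0 N) 2)) = z := by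
    intro z hz
    induction hz using Algebra.adjoin_induction with
    | mem z hz =>
      rcases hz with ⟨ℓ, hℓ, hN, hS, rfl⟩ | ⟨q, hN, hq, hS, rfl⟩
      · refine ⟨MvPolynomial.X ⟨⟨ℓ, hℓ⟩, hS⟩, ?_⟩
        rw [evS, MvPolynomial.aeval_X, genS, dif_neg hN]
        rfl
      · refine ⟨MvPolynomial.X ⟨⟨q, hq⟩, hS⟩, ?_⟩
        rw [evS, MvPolynomial.aeval_X, genS, dif_pos hN]
        rfl
    | algebraMap r =>
      refine ⟨algebraMap ℤ _ r, ?_⟩
      rw [AlgHom.commutes]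
      rfl
    | add x y _ _ hx hy =>
      obtain ⟨t, ht⟩ := hx
      obtain ⟨u, hu⟩ := hy
      exact ⟨t + u, by rw [map_add, Subalgebra.coe_add, ht, hu]⟩
    | mul x y _ _ hx hy =>
      obtain ⟨t, ht⟩ := hx
      obtain ⟨u, hu⟩ := hy
      exact ⟨t * u, by rw [map_mul, Subalgebra.coe_mul, ht, hu]⟩
  obtain ⟨t, ht⟩ := key y hy
  exact ⟨t, Subtype.ext ht⟩

/-- **Inverting Hecke polynomials on torsion.** -/
theorem exists_inverse (hS : ∀ ℓ : ℕ, ℓ.Prime → ℓ ∣ N → ℓ ∈ S) (t : HeckeAlgS S)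
    (ht : ∀ f : CuspForm (Gamma0 N) 2,
      ((evS N S t : CuspForm.heckeAlgebra N 2 S) : Module.End ℂ (CuspForm (Gamma0 N) 2)) f = 0 →
        f = 0) :
    ∃ (u : HeckeAlgS S) (n : ℕ), n ≠ 0 ∧ ∀ k : ℕ, k ≠ 0 → ∀ x : JZero N, k • x = 0 →
      (letI := heckeModuleBar N; inclS S (u * t) • x) = n • x := by
  haveI : Module.Finite ℤ (CuspForm.heckeAlgebra N 2 S) :=
    Fermat.Agent.S22aux.finite_heckeAlgebra N 2 S
  obtain ⟨a, n, hn, ha⟩ := exists_mul_eq_natCast (y := evS N S t)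
    (IsIntegral.of_finite ℤ _) (fun a ha => by
      apply Subtype.ext
      refine LinearMap.ext fun f => ht _ ?_
      have h1 := congrArg (fun z : CuspForm.heckeAlgebra N 2 S =>
        (z : Module.End ℂ (CuspForm (Gamma0 N) 2)) f) ha
      exact h1)
  obtain ⟨u, rfl⟩ := evS_surjective N S a
  obtain ⟨e, he, h⟩ := cofaithful' N
  refine ⟨e * u, e * n, mul_ne_zero he hn, fun k hk x hx => ?_⟩
  letI := heckeModuleBar N
  have h1 := h S hS (u * t - n) (by rw [map_sub, map_mul, ha, map_natCast, sub_self]) k hk x hx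
  have h2 : inclS S (e * (u * t - n)) • x = inclS S (e * u * t) • x - (e * n) • x := by
    rw [mul_sub, map_sub, sub_smul, ← mul_assoc]
    congr 1
    rw [← Nat.cast_mul, map_natCast, Nat.cast_smul_eq_nsmul]
  rw [h2] at h1
  exact sub_eq_zero.mp h1

variable {N S}

theorem heckeTLin_sub_injective {ℓ : ℕ} (hℓ : ℓ.Prime) (hN : ¬ ℓ ∣ N) {m : ℤ}
    (hm : (ℓ : ℤ) + 1 ≤ |m|) (f : CuspForm (Gamma0 N) 2)
    (hf : CuspForm.heckeTLin 2 hℓ hN f = (m : ℂ) • f) : f = 0 := by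
  by_contra hne
  have h := Fermat.Agent.MZ.norm_lt_succ hℓ.two_le f hne m fun τ => by
    rw [← CuspForm.heckeTLin_apply_apply 2 hℓ hN f τ, hf]
    rfl
  rw [Complex.norm_intCast] at h
  have h2 : ((ℓ : ℤ) + 1 : ℝ) ≤ ((|m| : ℤ) : ℝ) := by exact_mod_cast hm
  push_cast at h2
  linarith

theorem evS_sub_injective (hS : ∀ ℓ : ℕ, ℓ.Prime → ℓ ∣ N → ℓ ∈ S)
    (ℓ : {ℓ : Nat.Primes // (ℓ : ℕ) ∉ S}) {m : ℤ} (hm : ((ℓ.1 : ℕ) : ℤ) + 1 ≤ |m|)
    (f : CuspForm (Gamma0 N) 2)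
    (hf : ((evS N S (MvPolynomial.X ℓ - (m : HeckeAlgS S)) : CuspForm.heckeAlgebra N 2 S) :
      Module.End ℂ (CuspForm (Gamma0 N) 2)) f = 0) : f = 0 := by
  have hN : ¬ (ℓ.1 : ℕ) ∣ N := fun h => ℓ.2 (hS _ ℓ.1.2 h)
  refine heckeTLin_sub_injective ℓ.1.2 hN hm f ?_
  rw [map_sub, evS, MvPolynomial.aeval_X, genS, dif_neg hN, map_intCast, Subalgebra.coe_sub,
    LinearMap.sub_apply, CuspForm.heckeAlgebra.coe_T, sub_eq_zero] at hf
  rw [hf]
  have h1 : (((m : ℤ) : CuspForm.heckeAlgebra N 2 S) : Module.End ℂ (CuspForm (Gamma0 N) 2)) =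
    ((m : ℤ) : Module.End ℂ (CuspForm (Gamma0 N) 2)) := by push_cast; rfl
  rw [h1, Module.End.intCast_apply, Int.cast_smul_eq_zsmul]

variable (N S)

/-- **The weight bound**: `T_ℓ - m` is invertible up to isogeny on torsion if `|m| ≥ ℓ + 1`. -/
theorem exists_weight (hS : ∀ ℓ : ℕ, ℓ.Prime → ℓ ∣ N → ℓ ∈ S)
    (ℓ : {ℓ : Nat.Primes // (ℓ : ℕ) ∉ S}) {m : ℤ} (hm : ((ℓ.1 : ℕ) : ℤ) + 1 ≤ |m|) :
    ∃ (u : HeckeAlgS S) (n : ℕ), n ≠ 0 ∧ ∀ k : ℕ, k ≠ 0 → ∀ x : JZero N, k • x = 0 →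
      (letI := heckeModuleBar N; inclS S (u * (MvPolynomial.X ℓ - (m : HeckeAlgS S))) • x) =
        n • x :=
  exists_inverse N S hS _ fun f hf => evS_sub_injective hS ℓ hm f hf

/-- The symmetric weight bound: `T_ℓ² - m²`. -/
theorem exists_weight_sq (hS : ∀ ℓ : ℕ, ℓ.Prime → ℓ ∣ N → ℓ ∈ S)
    (ℓ : {ℓ : Nat.Primes // (ℓ : ℕ) ∉ S}) {m : ℤ} (hm : ((ℓ.1 : ℕ) : ℤ) + 1 ≤ |m|) :
    ∃ (u : HeckeAlgS S) (n : ℕ), n ≠ 0 ∧ ∀ k : ℕ, k ≠ 0 → ∀ x : JZero N, k • x = 0 →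
      (letI := heckeModuleBar N;
        inclS S (u * (MvPolynomial.X ℓ ^ 2 - (m : HeckeAlgS S) ^ 2)) • x) = n • x := by
  refine exists_inverse N S hS _ fun f hf => ?_
  have h1 : (MvPolynomial.X ℓ ^ 2 - (m : HeckeAlgS S) ^ 2 : HeckeAlgS S) =
      (MvPolynomial.X ℓ - (m : HeckeAlgS S)) * (MvPolynomial.X ℓ - ((-m : ℤ) : HeckeAlgS S)) := by
    push_cast
    ring
  rw [h1, map_mul, Subalgebra.coe_mul, Module.End.mul_apply] at hf
  exact evS_sub_injective hS ℓ (by rwa [abs_neg]) _ (evS_sub_injective hS ℓ hm _ hf)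

end Fermat.Agent.Cofaith

end
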