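import Fermat.Agent.S21
import Fermat.Agent.HeckePar.Faithful

/-!
# Hecke polynomials killing cusp forms kill integral parabolic classes
-/

set_option autoImplicit false

open UpperHalfPlane Filter Topology Function CongruenceSubgroup
open scoped MatrixGroups Manifold ModularForm Real ComplexConjugate

noncomputable section

namespace Fermat.Agent.Cofaith

open Fermat.Agent.S21per Fermat.Agent.GalRep ModularCurve ModularCurve.Period Fermat.Agent.HeckePar

variable (N : ℕ) [NeZero N]

/-- A cusp form with real periods is zero. -/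
theorem eq_zero_of_real {N : ℕ} [NeZero N] {f : CuspForm (Gamma0 N) 2}
    (h : ∀ γ : Gamma0 N, (periodLin N f (Additive.ofMul γ)).im = 0) : f = 0 := by
  obtain ⟨F, hF⟩ := exists_goodPrim f
  refine eq_zero_of_const hF fun z w => ?_
  have h1 := (hF.nice.smul (-Complex.I)).eq_const (fun γ hγ τ => by
    have h2 : periodLin N f (Additive.ofMul (⟨γ, hγ⟩ : Gamma0 N)) = F (γ • τ) - F τ :=
      hF.periodMap_apply ⟨γ, hγ⟩ τ
    have h3 := h ⟨γ, hγ⟩
    rw [h2, Complex.sub_im, sub_eq_zero] at h3
    simpa using h3) z w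
  simpa using h1

/-- complex conjugation on coefficients -/
def conjHom (φ : Additive (Gamma0 N) →+ ℂ) : Additive (Gamma0 N) →+ ℂ :=
  (starRingEnd ℂ).toAddMonoidHom.comp φ

/-- `(f, g) ↦ per f + conj (per g)`. -/
def theta : (CuspForm (Gamma0 N) 2 × CuspForm (Gamma0 N) 2) →ₗ[ℝ] (Additive (Gamma0 N) →+ ℂ) where
  toFun p := periodLin N p.1 + conjHom N (periodLin N p.2)
  map_add' p q := by
    ext γ
    simp [conjHom]
    ring
  map_smul' c p := by
    have h1 : ∀ f : CuspForm (Gamma0 N) 2, periodLin N (c • f) = (c : ℂ) • periodLin N f := by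
      intro f
      rw [← map_smul]
      rfl
    ext γ
    simp only [Prod.smul_fst, Prod.smul_snd, h1, conjHom, RingHom.id_apply]
    simp

theorem theta_apply (f g : CuspForm (Gamma0 N) 2) :
    theta N (f, g) = periodLin N f + conjHom N (periodLin N g) := rfl

theorem theta_injective : Function.Injective (theta N) := by
  rw [← LinearMap.ker_eq_bot, LinearMap.ker_eq_bot']
  rintro ⟨f, g⟩ h
  rw [theta_apply] at h
  have h0 : ∀ γ : Gamma0 N, periodLin N f (Additive.ofMul γ) +
      conj (periodLin N g (Additive.ofMul γ)) = 0 := fun γ => DFunLike.congr_fun h _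
  -- `f - g` has purely imaginary... periods of `i (f - g)` and `f + g`
  have h1 : Complex.I • (f + g) = 0 := by
    apply eq_zero_of_real
    intro γ
    have h2 := h0 γ
    have e : periodLin N f (Additive.ofMul γ) = -conj (periodLin N g (Additive.ofMul γ)) := by
      linear_combination h2
    rw [map_smul, map_add, AddMonoidHom.smul_apply, AddMonoidHom.add_apply, e]
    simp
  have h2 : f - g = 0 := by
    apply eq_zero_of_real
    intro γ
    have h2 := h0 γ
    have e : periodLin N f (Additive.ofMul γ) = -conj (periodLin N g (Additive.ofMul γ)) := by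
      linear_combination h2
    rw [map_sub, AddMonoidHom.sub_apply, e]
    simp
  have h3 : f + g = 0 := (smul_eq_zero.mp h1).resolve_left Complex.I_ne_zero
  have h4 : f = g := sub_eq_zero.mp h2
  rw [h4, ← two_smul ℂ] at h3
  have h5 : g = 0 := (smul_eq_zero.mp h3).resolve_left two_ne_zero
  rw [h4, h5]
  rfl

theorem conj_mem {φ : Additive (Gamma0 N) →+ ℂ} (hφ : IsParabolicHom (Gamma0 N) φ) :
    IsParabolicHom (Gamma0 N) (conjHom N φ) := by
  intro γ hγ
  show conj (φ (Additive.ofMul γ)) = 0
  rw [hφ γ hγ, map_zero]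

/-- Every complex parabolic class is `per f + conj (per g)`. -/
theorem exists_theta {φ : Additive (Gamma0 N) →+ ℂ} (hφ : IsParabolicHom (Gamma0 N) φ) :
    ∃ f g : CuspForm (Gamma0 N) 2, φ = periodLin N f + conjHom N (periodLin N g) := by
  have hfin := finiteDimensional_cuspForm (N := N)
  have hfin2 : FiniteDimensional ℂ (parabolicHoms ℂ (Gamma0 N) ℂ) := inferInstance
  have hrank : Module.finrank ℂ (parabolicHoms ℂ (Gamma0 N) ℂ) =
      2 * Module.finrank ℂ (CuspForm (Gamma0 N) 2) := by
    rw [← (Fermat.Agent.S21.result N).2]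
    exact two_mul_finrank_eq
  let Θ : (CuspForm (Gamma0 N) 2 × CuspForm (Gamma0 N) 2) →ₗ[ℝ] (parabolicHoms ℂ (Gamma0 N) ℂ) :=
    LinearMap.codRestrict ((parabolicHoms ℂ (Gamma0 N) ℂ).restrictScalars ℝ) (theta N) (by
      rintro ⟨f, g⟩
      rw [theta_apply]
      exact Submodule.add_mem _ (periodLin_mem_parabolicHoms f)
        (conj_mem N (periodLin_mem_parabolicHoms g)))
  have hΘ : Function.Injective Θ := by
    intro p q hpq
    exact theta_injective N (congrArg Subtype.val hpq)
  have hfinR : FiniteDimensional ℝ (CuspForm (Gamma0 N) 2) := Module.Finite.trans ℂ _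
  have hfinR2 : FiniteDimensional ℝ (parabolicHoms ℂ (Gamma0 N) ℂ) := Module.Finite.trans ℂ _
  have hd : Module.finrank ℝ (CuspForm (Gamma0 N) 2 × CuspForm (Gamma0 N) 2) =
      Module.finrank ℝ (parabolicHoms ℂ (Gamma0 N) ℂ) := by
    rw [Module.finrank_prod, finrank_real_of_complex, finrank_real_of_complex, hrank]
    ring
  have hsurj := (LinearMap.injective_iff_surjective_of_finrank_eq_finrank hd).mp hΘ
  obtain ⟨⟨f, g⟩, h⟩ := hsurj ⟨φ, hφ⟩
  exact ⟨f, g, (congrArg Subtype.val h).symm⟩

/-- Hecke polynomials which vanish on cusp forms vanish on integral parabolic classes. -/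
theorem parEval_eq_zero (S : Set ℕ) (t : HeckeAlgS S) (ht : evS N S t = 0)
    {φ : Additive (Gamma0 N) →+ ℤ} (hφ : IsParabolicHom (Gamma0 N) φ) :
    parEval N S ℤ t φ = 0 := by
  have hper : ∀ f : CuspForm (Gamma0 N) 2, parEval N S ℂ t (periodLin N f) = 0 := by
    intro f
    rw [← periodLin_evS, ht]
    exact map_zero (periodLin N)
  have hC : ∀ ψ : Additive (Gamma0 N) →+ ℂ, IsParabolicHom (Gamma0 N) ψ → parEval N S ℂ t ψ = 0 := by
    intro ψ hψ
    obtain ⟨f, g, rfl⟩ := exists_theta N hψ
    rw [map_add, hper, zero_add, conjHom, parEval_comp, hper, AddMonoidHom.comp_zero]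
  have h1 : parEval N S ℂ t ((Int.castAddHom ℂ).comp φ) = 0 := by
    apply hC
    intro γ hγ
    show ((φ (Additive.ofMul γ) : ℤ) : ℂ) = 0
    rw [hφ γ hγ, Int.cast_zero]
  rw [parEval_comp] at h1
  ext γ
  have h2 := DFunLike.congr_fun h1 γ
  have h3 : (((parEval N S ℤ t φ) γ : ℤ) : ℂ) = 0 := h2
  exact_mod_cast h3

end Fermat.Agent.Cofaith
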