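import Mathlib
import Fermat.Agent.GalRep.JZ7_Char

/-!
# Lifting characters of finite order to integral homomorphisms
-/

set_option autoImplicit false

noncomputable section

namespace Fermat.Agent.Cofaith

open Fermat.Agent.GalRep

theorem exists_zpow_zetaC {n : ℕ} (hn : n ≠ 0) {u : ℂˣ} (hu : u ^ n = 1) :
    ∃ k : ℤ, u = zetaC n ^ k := by
  have : NeZero n := ⟨hn⟩
  have h1 : IsPrimitiveRoot ((zetaC n : ℂˣ) : ℂ) n :=
    IsPrimitiveRoot.coe_units_iff.mpr (isPrimitiveRoot_zetaC hn)
  have h2 : (u : ℂ) ^ n = 1 := by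
    rw [← Units.val_pow_eq_pow_val, hu, Units.val_one]
  obtain ⟨i, -, hi⟩ := h1.eq_pow_of_pow_eq_one h2
  refine ⟨i, ?_⟩
  ext
  rw [zpow_natCast, Units.val_pow_eq_pow_val, hi]

/-- A bounded multiple of any finite order character killing `P` lifts to an integral homomorphism
killing `P`. -/
theorem exists_lift (G : Type*) [Group G] [Group.FG G] (P : Set G) :
    ∃ e : ℕ, e ≠ 0 ∧ ∀ (n : ℕ), n ≠ 0 → ∀ χ : G →* ℂˣ, χ ^ n = 1 → (∀ g ∈ P, χ g = 1) →
      ∃ φ : Additive G →+ ℤ, (∀ g ∈ P, φ (Additive.ofMul g) = 0) ∧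
        ∀ g, χ g ^ e = zetaC n ^ (φ (Additive.ofMul g)) := by
  classical
  -- the abelian group
  let M := Additive (Abelianization G)
  have hfgA : Group.FG (Abelianization G) :=
    Group.fg_of_surjective (f := Abelianization.of) (Quotient.mk_surjective)
  have hfgM : AddGroup.FG M := GroupFG.iff_add_fg.mp hfgA
  let q : Additive G →+ M := MonoidHom.toAdditive Abelianization.of
  let R : AddSubgroup M := AddSubgroup.closure (q '' (Additive.toMul ⁻¹' P))
  let A := M ⧸ R
  have hfgA' : AddGroup.FG A :=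
    AddGroup.fg_of_surjective (f := QuotientAddGroup.mk' R) (QuotientAddGroup.mk'_surjective R)
  have hfin : Module.Finite ℤ A := Module.Finite.iff_addGroup_fg.mpr hfgA'
  have htors : Finite (Submodule.torsion ℤ A) := by
    have : Module.Finite ℤ (Submodule.torsion ℤ A) := inferInstance
    exact Module.finite_of_fg_torsion _ (Submodule.torsion_isTorsion)
  have := Fintype.ofFinite (Submodule.torsion ℤ A)
  let B := A ⧸ Submodule.torsion ℤ A
  have hB : Module.Free ℤ B := inferInstance
  refine ⟨Fintype.card (Submodule.torsion ℤ A), Fintype.card_ne_zero, ?_⟩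
  intro n hn χ hχn hχP
  set e := Fintype.card (Submodule.torsion ℤ A) with he
  -- the induced map on `M`
  let χM : M →+ Additive ℂˣ := MonoidHom.toAdditive (Abelianization.lift χ)
  have hχM : ∀ g : G, χM (q (Additive.ofMul g)) = Additive.ofMul (χ g) := fun g => rfl
  have hR : R ≤ χM.ker := by
    rw [AddSubgroup.closure_le]
    rintro _ ⟨g, hg, rfl⟩
    rw [SetLike.mem_coe, AddMonoidHom.mem_ker]
    have h1 := hχM (Additive.toMul g)
    have h2 : χ (Additive.toMul g) = 1 := hχP _ hg
    rw [h2] at h1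
    exact h1
  let χA : A →+ Additive ℂˣ := QuotientAddGroup.lift R χM hR
  -- `e χ` kills the torsion
  let χe : A →ₗ[ℤ] Additive ℂˣ := (e • χA).toIntLinearMap
  have hT : Submodule.torsion ℤ A ≤ LinearMap.ker χe := by
    intro x hx
    rw [LinearMap.mem_ker]
    show e • χA x = 0
    rw [← map_nsmul]
    have h1 : e • (⟨x, hx⟩ : Submodule.torsion ℤ A) = 0 := card_nsmul_eq_zero
    have h2 : e • x = 0 := congrArg Subtype.val h1
    rw [h2, map_zero]
  let ψ : B →ₗ[ℤ] Additive ℂˣ := (Submodule.torsion ℤ A).liftQ χe hT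
  have hnψ : ∀ b : B, n • ψ b = 0 := by
    intro b
    obtain ⟨a, rfl⟩ := Submodule.Quotient.mk_surjective _ b
    obtain ⟨m, rfl⟩ := QuotientAddGroup.mk'_surjective R a
    obtain ⟨g', hg'⟩ := Quotient.mk_surjective (Additive.toMul m)
    have hm : m = q (Additive.ofMul g') := by
      apply Additive.toMul.injective
      exact hg'.symm
    show n • (e • χM m) = 0
    rw [smul_comm, hm, hχM, ← ofMul_pow, ← MonoidHom.pow_apply, hχn]
    simp
  -- a basis of `B`
  let bs := Module.finBasis ℤ B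
  have hk : ∀ i, ∃ k : ℤ, Additive.toMul (ψ (bs i)) = zetaC n ^ k := fun i =>
    exists_zpow_zetaC hn (by
      have := hnψ (bs i)
      exact this)
  choose k hk using hk
  let φB : B →ₗ[ℤ] ℤ := bs.constr ℤ k
  have hφB : ∀ b : B, Additive.toMul (ψ b) = zetaC n ^ φB b := by
    intro b
    let z : ℤ →ₗ[ℤ] Additive ℂˣ := (zmultiplesHom (Additive ℂˣ) (Additive.ofMul (zetaC n))).toIntLinearMap
    have h1 : ψ = z.comp φB := by
      refine bs.ext fun i => ?_
      rw [LinearMap.comp_apply, Module.Basis.constr_basis]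
      apply Additive.toMul.injective
      rw [hk]
      rfl
    rw [h1]
    rfl
  let φ : Additive G →+ ℤ :=
    (φB.toAddMonoidHom.comp ((Submodule.torsion ℤ A).mkQ.toAddMonoidHom)).comp
      ((QuotientAddGroup.mk' R).comp q)
  refine ⟨φ, ?_, ?_⟩
  · intro g hg
    have h1 : (QuotientAddGroup.mk' R) (q (Additive.ofMul g)) = 0 := by
      rw [QuotientAddGroup.mk'_apply, QuotientAddGroup.eq_zero_iff]
      exact AddSubgroup.subset_closure ⟨Additive.ofMul g, hg, rfl⟩
    show φB ((Submodule.torsion ℤ A).mkQ ((QuotientAddGroup.mk' R) (q (Additive.ofMul g)))) = 0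
    rw [h1, map_zero, map_zero]
  · intro g
    have h1 := hφB ((Submodule.torsion ℤ A).mkQ ((QuotientAddGroup.mk' R) (q (Additive.ofMul g))))
    exact h1

end Fermat.Agent.Cofaith
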