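import Fermat.Agent.Cofaith.Exists
import Fermat.Agent.Cofaith.Lift
import Fermat.Agent.Cofaith.Span
import Fermat.Agent.GalRep.JZ5_RelHecke

/-!
# Cofaithfulness: Hecke polynomials vanishing on cusp forms kill the torsion of `J₀(N)`
-/

set_option autoImplicit false

open CongruenceSubgroup
open scoped MatrixGroups

noncomputable section

namespace Fermat.Agent.Cofaith

open Fermat.Agent.GalRep ModularCurve ModularCurve.Period Fermat.Agent.HeckePar
open Fermat.Agent.X0Emb

variable {N : ℕ} [NeZero N] {ι : AlgebraicClosure ℚ →+* ℂ} {n : ℕ}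

/-- inputs of the Hecke comparison outside `S` -/
def HeckeBridges (ι : AlgebraicClosure ℚ →+* ℂ) (N : ℕ) [NeZero N] (S : Set ℕ) : Prop :=
  ∀ ℓ : Nat.Primes, (ℓ : ℕ) ∉ S → haveI : Fact (ℓ : ℕ).Prime := ⟨ℓ.2⟩; HeckeBridge ι N ℓ

theorem charOf_zsmul {n : ℕ} (a : ℤ) (φ : Additive (Gamma0 N) →+ ℤ) (γ : Gamma0 N) :
    charOf n (a • φ) γ = charOf n φ γ ^ a := by
  rw [charOf_apply, charOf_apply, ← zpow_mul]
  congr 1
  rw [AddMonoidHom.smul_apply, smul_eq_mul, mul_comm]

/-- integer multiples -/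
theorem Rel.zsmul_charOf (hn : n ≠ 0) {y : JZero N} {φ : Additive (Gamma0 N) →+ ℤ}
    (hy : Rel ι N n y (charOf n φ)) (a : ℤ) : Rel ι N n (a • y) (charOf n (a • φ)) := by
  have hnZ : (n : ℤ) ≠ 0 := by exact_mod_cast hn
  set k : ℕ := (a % n).toNat with hk
  have hkZ : (k : ℤ) = a % n := Int.toNat_of_nonneg (Int.emod_nonneg _ hnZ)
  have ha : a = n * (a / n) + k := by rw [hkZ]; exact (Int.mul_ediv_add_emod a n).symm
  have h1 : a • y = k • y := by
    have h2 : (n : ℤ) • y = 0 := by rw [natCast_zsmul]; exact hy.nsmul_eq_zero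
    calc a • y = ((a / n) * n + k : ℤ) • y := by rw [mul_comm]; rw [← ha]
      _ = (a / n) • ((n : ℤ) • y) + (k : ℤ) • y := by rw [add_zsmul, mul_zsmul]
      _ = k • y := by rw [h2, zsmul_zero, zero_add, natCast_zsmul]
  have h3 : charOf n (a • φ) = charOf n φ ^ k := by
    refine MonoidHom.ext fun γ => ?_
    rw [charOf_zsmul, MonoidHom.pow_apply]
    have h4 : charOf n φ γ ^ n = 1 := by
      rw [← MonoidHom.pow_apply, charOf_pow hn]
      rfl
    have h5 : charOf n φ γ ^ ((n : ℤ) * (a / n)) = 1 := by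
      rw [zpow_mul, zpow_natCast, h4, one_zpow]
    calc charOf n φ γ ^ a = charOf n φ γ ^ ((n : ℤ) * (a / n) + k) := by rw [← ha]
      _ = charOf n φ γ ^ k := by rw [zpow_add, h5, one_mul, zpow_natCast]
  rw [h1, h3]
  exact hy.pow k

/-- Hecke polynomials and the relation. -/
theorem Rel.heckePoly {S : Set ℕ} (HB : HeckeBridges ι N S) (hcomm : HeckeOperatorsCommuteBar N)
    (hn : n ≠ 0) (t : HeckeAlgS S) {y : JZero N} {φ : Additive (Gamma0 N) →+ ℤ}
    (hy : Rel ι N n y (charOf n φ)) :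
    Rel ι N n (letI := heckeModuleBar N; inclS S t • y) (charOf n (parEval N S ℤ t φ)) := by
  letI := heckeModuleBar N
  show Rel ι N n (inclS S t • y) (charOf n (parEval N S ℤ t φ))
  induction t using MvPolynomial.induction_on generalizing y φ with
  | C a =>
    have h1 : inclS S (MvPolynomial.C a) • y = a • y := by
      have : inclS S (MvPolynomial.C a) = MvPolynomial.C a := by
        rw [inclS, MvPolynomial.rename_C]
      rw [this]
      exact heckeModuleBar_C_smul a y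
    have h2 : parEval N S ℤ (MvPolynomial.C a) φ = a • φ := by
      rw [← MvPolynomial.algebraMap_eq, AlgHom.commutes, eq_intCast, Module.End.intCast_apply]
    rw [h1, h2]
    exact Rel.zsmul_charOf hn hy a
  | add p q hp hq =>
    rw [map_add, add_smul, map_add, LinearMap.add_apply, charOf_add]
    exact (hp hy).mul (hq hy)
  | mul_X p ℓ hp =>
    rw [map_mul, mul_smul, map_mul, Module.End.mul_apply, parEval_X]
    apply hp
    have h1 : inclS S (MvPolynomial.X ℓ) = heckeGen ℓ.1 := by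
      rw [inclS, MvPolynomial.rename_X]; rfl
    rw [h1]
    have h2 : heckeGen ℓ.1 • y = heckeOperatorBar N ℓ.1 y := heckeModuleBar_heckeGen_smul hcomm ℓ.1 y
    rw [h2]
    have : Fact (ℓ.1 : ℕ).Prime := ⟨ℓ.1.2⟩
    have h3 := Rel.hecke ℓ.1 (HB ℓ.1 ℓ.2) hy
    rw [← charOf_transfer] at h3
    exact h3

/-- the parabolic elements -/
def parabolicSet (N : ℕ) : Set (Gamma0 N) :=
  {γ | ((γ : SL(2, ℤ)) : Matrix (Fin 2) (Fin 2) ℤ).trace ^ 2 = 4}

/-- A bounded multiple of every torsion class comes from an integral parabolic class. -/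
theorem exists_rel_charOf (N : ℕ) [NeZero N] : ∃ e : ℕ, e ≠ 0 ∧ ∀ (n : ℕ), n ≠ 0 →
    ∀ x : JZero N, n • x = 0 → ∃ φ : Additive (Gamma0 N) →+ ℤ, IsParabolicHom (Gamma0 N) φ ∧
      Rel iota N n (e • x) (charOf n φ) := by
  have hfg : Group.FG (Gamma0 N) := Fermat.Agent.S22alg.fg_Gamma0 N
  obtain ⟨e, he, h⟩ := exists_lift (Gamma0 N) (parabolicSet N)
  refine ⟨e, he, fun n hn x hx => ?_⟩
  obtain ⟨χ, h1, h2, h3⟩ := exists_rel N hn x hx
  obtain ⟨φ, h4, h5⟩ := h n hn χ h2 h3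
  refine ⟨φ, h4, ?_⟩
  have h6 : charOf n φ = χ ^ e := by
    refine MonoidHom.ext fun γ => ?_
    rw [charOf_apply, ← h5, MonoidHom.pow_apply]
  rw [h6]
  exact h1.pow e

/-- **Cofaithfulness.** -/
theorem cofaithful (N : ℕ) [NeZero N] : ∃ e : ℕ, e ≠ 0 ∧
    ∀ (S : Set ℕ) (_ : HeckeBridges iota N S) (_ : HeckeOperatorsCommuteBar N) (t : HeckeAlgS S),
      evS N S t = 0 → ∀ (n : ℕ), n ≠ 0 → ∀ x : JZero N, n • x = 0 →
        (letI := heckeModuleBar N; inclS S (e * t) • x) = 0 := by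
  obtain ⟨e, he, h⟩ := exists_rel_charOf N
  refine ⟨e, he, fun S HB hcomm t ht n hn x hx => ?_⟩
  letI := heckeModuleBar N
  show inclS S (e * t) • x = 0
  obtain ⟨φ, hφ, h1⟩ := h n hn x hx
  have h2 := Rel.heckePoly HB hcomm hn t h1
  rw [parEval_eq_zero N S t ht hφ, charOf_zero] at h2
  have h3 := h2.eq_zero (bridge iota N) hn
  have h4 : inclS S (e * t) • x = inclS S t • (e • x) := by
    rw [map_mul, map_natCast, mul_comm, mul_smul, Nat.cast_smul_eq_nsmul]
  rw [h4]
  exact h3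

end Fermat.Agent.Cofaith
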