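import Fermat.Agent.Cofaith.Ord
import Fermat.Agent.X0Emb.Emb
import Fermat.Agent.EisChar.Sigma
import Fermat.Agent.GalRep.JZ3_Periodic
import Fermat.Agent.ModFun.Basic
import Fermat.Agent.S21.PeriodParabolic

/-!
# The character of an `n`-th root of a Kummer function
-/

set_option autoImplicit false

open UpperHalfPlane Function Filter Topology AlgebraicCurve WithZero ModularCurve Asymptotics
open scoped Manifold MatrixGroups

noncomputable section

namespace Fermat.Agent.Cofaith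

open Fermat.Agent.X0Emb Fermat.Agent.X0Deg Fermat.Agent.FFOrb Fermat.Agent.ModFun

local notation "𝕢" => Periodic.qParam

/-- change of the width of a Laurent expansion -/
theorem lexp_mul_width {h : ℝ} (hh : h ≠ 0) {f : ℍ → ℂ} {G : LaurentSeries ℂ} (hf : LExp h f G)
    (m : ℕ) [NeZero m] : LExp (h * m) f (qExpand ℂ m G) := by
  intro τ
  have h1 := hf τ
  have hinj : Function.Injective (fun n : ℤ ↦ (m : ℤ) * n) :=
    mul_right_injective₀ (by exact_mod_cast NeZero.ne m)
  have hm : (m : ℂ) ≠ 0 := by exact_mod_cast NeZero.ne m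
  have hhC : (h : ℂ) ≠ 0 := by exact_mod_cast hh
  have hq : 𝕢 h (τ : ℂ) = 𝕢 (h * m) (τ : ℂ) ^ (m : ℤ) := by
    rw [zpow_natCast, Periodic.qParam, Periodic.qParam, ← Complex.exp_nat_mul]
    congr 1
    push_cast
    field_simp
  rw [← hinj.hasSum_iff]
  · convert! h1 using 2 with n
    simp only [Function.comp, ModularCurve.qExpand_coeff_mul]
    rw [hq, ← zpow_mul]
  · intro n hn
    rw [ModularCurve.qExpand_coeff_of_not_dvd, zero_mul]
    rintro ⟨k, rfl⟩
    exact hn ⟨k, rfl⟩

/-- Growth of roots. -/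
theorem growthInf_of_pow {n : ℕ} (hn : n ≠ 0) {g H : ℍ → ℂ} (h : ∀ τ, g τ ^ n = H τ)
    (hH : GrowthInf H) : GrowthInf g := by
  obtain ⟨m, hm⟩ := hH
  obtain ⟨C, hC0, hC⟩ := hm.exists_pos
  refine ⟨m, IsBigO.of_bound (1 + C) ?_⟩
  filter_upwards [hC.bound] with τ hτ
  have him := τ.im_pos
  have he : 1 ≤ Real.exp (m * τ.im) := Real.one_le_exp (by positivity)
  rw [Real.norm_of_nonneg (Real.exp_pos _).le] at hτ ⊢
  rcases le_or_gt ‖g τ‖ 1 with h1 | h1
  · calc ‖g τ‖ ≤ 1 := h1
      _ ≤ Real.exp (m * τ.im) := he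
      _ ≤ (1 + C) * Real.exp (m * τ.im) := le_mul_of_one_le_left (by positivity) (by linarith)
  · calc ‖g τ‖ ≤ ‖g τ‖ ^ n := le_self_pow₀ h1.le hn
      _ = ‖H τ‖ := by rw [← norm_pow, h]
      _ ≤ C * Real.exp (m * τ.im) := hτ
      _ ≤ (1 + C) * Real.exp (m * τ.im) := by
        apply mul_le_mul_of_nonneg_right _ (by positivity)
        linarith

theorem mdiff_smul {g : ℍ → ℂ} (hg : MDiff g) (δ : SL(2, ℤ)) : MDiff (fun τ => g (δ • τ)) := by
  have hdet : (0 : ℝ) < ((δ : GL (Fin 2) ℝ)).det.val := by simp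
  exact hg.comp (mdifferentiable_smul hdet)

variable {K : Type*} [Field K] {F : IntermediateField K (LaurentSeries K)}
  {X : Type*} [MulAction SL(2, ℤ) X] {N : ℕ} (D : EmbData F X N)

/-- Characters of roots are trivial on parabolic elements. -/
theorem char_parabolic [NeZero N] {n : ℕ} (hn : n ≠ 0) {a : D.A} (h0 : a ≠ 0)
    (hdvd : ∀ v : Place K F, (n : ℤ) ∣ v.ord (a : F)) {g : ℍ → ℂ} (hg : MDiff g)
    (hgn : ∀ τ, g τ ^ n = D.embA D.x0 a τ) {γ : SL(2, ℤ)} (hγ : γ • D.x0 = D.x0)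
    (htr : (γ : Matrix (Fin 2) (Fin 2) ℤ).trace ^ 2 = 4) {c : ℂ} (hc : c ^ n = 1)
    (hgγ : ∀ τ, g (γ • τ) = c * g τ) : c = 1 := by
  have hgrow : ∀ δ : SL(2, ℤ), GrowthInf (fun τ => g (δ • τ)) := by
    intro δ
    obtain ⟨G, hG⟩ := D.embA_lexp (δ⁻¹ • D.x0) a
    refine growthInf_of_pow hn (H := D.embA (δ⁻¹ • D.x0) a) (fun τ => ?_)
      (LExp_growthInf (by exact_mod_cast Nat.pos_of_ne_zero (NeZero.ne N)) hG)
    rw [hgn, D.embA_smul, Hol.smul_apply, inv_inv]
  obtain ⟨δ, m, hδ⟩ := S21per.exists_conj_translation γ htr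
  -- reduce to positive translation lengths
  wlog hm : 0 < m generalizing γ m c
  · rcases (not_lt.mp hm).lt_or_eq with hlt | heq
    · have hc0 : c ≠ 0 := by
        rintro rfl
        rw [zero_pow hn] at hc
        exact zero_ne_one hc
      have h1 : c⁻¹ = 1 := by
        refine this (γ := γ⁻¹) (c := c⁻¹) (m := -m) ?_ ?_ ?_ ?_ ?_ (by omega)
        · rw [inv_smul_eq_iff, hγ]
        · rw [Matrix.SpecialLinearGroup.coe_inv, Matrix.adjugate_fin_two, Matrix.trace_fin_two]
          rw [Matrix.trace_fin_two] at htr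
          simp only [Matrix.of_apply, Matrix.cons_val_zero, Matrix.cons_val_one,
            Matrix.cons_val', Matrix.cons_val_fin_one]
          rw [add_comm]
          exact htr
        · rw [inv_pow, hc, inv_one]
        · intro τ
          have := hgγ (γ⁻¹ • τ)
          rw [smul_inv_smul] at this
          rw [this, inv_mul_cancel_left₀ hc0]
        · intro w
          rw [inv_smul_eq_iff, hδ, vadd_vadd]
          simp
      exact inv_eq_one.mp h1
    · -- `γ` acts trivially
      obtain ⟨τ, hτ⟩ : ∃ τ, g τ ≠ 0 := by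
        by_contra hcon
        push Not at hcon
        apply h0
        apply D.embA_inj D.x0
        rw [map_zero]
        ext τ
        rw [← hgn, hcon, zero_pow hn]
        rfl
      have h1 := hgγ τ
      have h2 : γ • τ = τ := by
        have := hδ (δ⁻¹ • τ)
        rw [heq] at this
        simpa using this
      rw [h2] at h1
      have h3 : 1 * g τ = c * g τ := by rw [one_mul]; exact h1
      exact (mul_right_cancel₀ hτ h3).symm
  obtain ⟨r, rfl⟩ : ∃ r : ℕ, m = r := ⟨m.toNat, by omega⟩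
  have hr : 0 < r := by exact_mod_cast hm
  have hNr : NeZero r := ⟨hr.ne'⟩
  have hNn : NeZero n := ⟨hn⟩
  have hrR : (0 : ℝ) < r := by exact_mod_cast hr
  have hnR : (0 : ℝ) < n := by exact_mod_cast Nat.pos_of_ne_zero hn
  have hNR : (0 : ℝ) < N := by exact_mod_cast Nat.pos_of_ne_zero (NeZero.ne N)
  set gδ : ℍ → ℂ := fun τ => g (δ • τ) with hgδ
  have htrans : ∀ τ : ℍ, gδ (((r : ℤ) : ℝ) +ᵥ τ) = c * gδ τ := by
    intro τ
    rw [hgδ]
    simp only
    rw [← hδ, hgγ]
  have htransn : ∀ (k : ℕ) (τ : ℍ), gδ (((k * r : ℕ) : ℝ) +ᵥ τ) = c ^ k * gδ τ := by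
    intro k
    induction k with
    | zero => intro τ; simp
    | succ k ih =>
      intro τ
      have e : (((k + 1) * r : ℕ) : ℝ) +ᵥ τ = ((r : ℤ) : ℝ) +ᵥ (((k * r : ℕ) : ℝ) +ᵥ τ) := by
        rw [vadd_vadd]
        congr 1
        push_cast
        ring
      rw [e, htrans, ih, pow_succ]
      ring
  -- periodicity
  have hper : Function.Periodic (gδ ∘ ofComplex) ((r : ℝ) * n : ℝ) := by
    intro w
    by_cases hw : 0 < w.im
    · have hw' : 0 < (w + (((r : ℝ) * n : ℝ) : ℂ)).im := by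
        rw [Complex.add_im, Complex.ofReal_im, add_zero]; exact hw
      simp only [comp_apply, ofComplex_apply_of_im_pos hw', ofComplex_apply_of_im_pos hw]
      have h1 := htransn n ⟨w, hw⟩
      rw [hc, one_mul] at h1
      rw [← h1]
      congr 1
      ext1
      rw [UpperHalfPlane.coe_vadd]
      push_cast
      ring
    · have hw' : ¬ 0 < (w + (((r : ℝ) * n : ℝ) : ℂ)).im := by
        rw [Complex.add_im, Complex.ofReal_im, add_zero]; exact hw
      rw [not_lt] at hw hw'
      simp only [comp_apply, ofComplex_apply_of_im_nonpos hw', ofComplex_apply_of_im_nonpos hw]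
  obtain ⟨m', hm'⟩ := hgrow δ
  obtain ⟨G, hG⟩ := GalRep.exists_lexp (h := (r : ℝ) * n) (by positivity) hper (mdiff_smul hg δ) hm'
  -- the stabiliser of the coset
  set x : X := δ⁻¹ • D.x0 with hx
  have hTx : (ModularGroup.T ^ r : SL(2, ℤ)) • x = x := by
    apply D.inj
    refine RingHom.ext fun b => ?_
    ext w
    have e2 : ∀ w : ℍ, (δ⁻¹)⁻¹ • ((ModularGroup.T ^ r : SL(2, ℤ))⁻¹ • w) = γ⁻¹ • (δ • w) := by
      intro w
      rw [inv_inv, eq_inv_smul_iff, hδ]
      have := UpperHalfPlane.modular_T_zpow_smul ((ModularGroup.T ^ r : SL(2, ℤ))⁻¹ • w) (r : ℤ)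
      rw [← this, zpow_natCast, smul_inv_smul]
    rw [D.embA_smul, hx, D.embA_smul, Hol.smul_apply, Hol.smul_apply, Hol.smul_apply, e2]
    have h3 : D.embA D.x0 b (γ⁻¹ • (δ • w)) = D.embA (γ • D.x0) b (δ • w) := by
      rw [D.embA_smul, Hol.smul_apply]
    rw [h3, hγ, inv_inv]
  have h4 := dvd_order_embInf D (h := (a : F)) (fun h => h0 (Subtype.ext h)) hdvd x r hTx
  -- compare orders
  have h5 : LExp ((r : ℝ) * n) (D.embA x a) (G ^ n) := by
    have h6 := hG.pow n
    have h7 : (gδ ^ n : ℍ → ℂ) = D.embA x a := by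
      funext τ
      rw [Pi.pow_apply, hgδ]
      simp only
      rw [hgn, hx, D.embA_smul, Hol.smul_apply, inv_inv]
    rwa [h7] at h6
  have h6 := lexp_mul_width (by positivity) h5 N
  have h7 := lexp_mul_width hNR.ne' (D.embInf_lexp x a) (r * n)
  have h8 : ((r : ℝ) * n) * N = (N : ℝ) * ((r * n : ℕ) : ℝ) := by push_cast; ring
  rw [h8] at h6
  have h9 := h6.unique (by positivity) h7
  have hord := congrArg HahnSeries.order h9
  rw [order_qExpand, order_qExpand] at hord
  have hG0 : G ≠ 0 := by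
    rintro rfl
    rw [zero_pow hn] at h5
    have h10 := h5.funext (LExp.zero _)
    apply h0
    apply D.embA_inj x
    rw [map_zero]
    exact Subtype.ext h10
  rw [HahnSeries.order_pow] at hord
  have hkey : (n : ℤ) ∣ G.order := by
    obtain ⟨e, he⟩ := h4
    refine ⟨e, ?_⟩
    have hnZ : (n : ℤ) ≠ 0 := by exact_mod_cast hn
    have hNZ : (N : ℤ) ≠ 0 := by exact_mod_cast NeZero.ne N
    apply mul_left_cancel₀ (mul_ne_zero hNZ hnZ)
    rw [nsmul_eq_mul] at hord
    push_cast at hord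
    linear_combination hord + (n : ℤ) * he
  -- the translation acts by a twist
  have htw : LExp ((r : ℝ) * n) (fun τ => c * gδ τ) (twist (zetaU 1 n) G) := by
    intro τ
    have h1 := hG (((r : ℤ) : ℝ) +ᵥ τ)
    rw [htrans] at h1
    convert! h1 using 2 with k
    rw [twist_coeff]
    have hq : 𝕢 ((r : ℝ) * n) ((((r : ℤ) : ℝ) +ᵥ τ : ℍ) : ℂ) =
        (zetaU 1 n : ℂ) * 𝕢 ((r : ℝ) * n) (τ : ℂ) := by
      rw [zetaU, Units.val_mk0, Periodic.qParam, Periodic.qParam, ← Complex.exp_add]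
      congr 1
      have hrC : (r : ℂ) ≠ 0 := by exact_mod_cast hr.ne'
      have hnC : (n : ℂ) ≠ 0 := by exact_mod_cast hn
      rw [UpperHalfPlane.coe_vadd]
      push_cast
      field_simp
    rw [hq, mul_zpow, Units.val_zpow_eq_zpow_val]
    ring
  have hcG : LExp ((r : ℝ) * n) (fun τ => c * gδ τ) (HahnSeries.C c * G) :=
    (LExp.const _ c).mul hG
  have h10 := congrArg (fun P : LaurentSeries ℂ => P.coeff G.order)
    (htw.unique (by positivity) hcG)
  simp only [twist_coeff] at h10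
  rw [HahnSeries.C_mul_eq_smul, HahnSeries.coeff_smul, smul_eq_mul] at h10
  have h11 := mul_right_cancel₀ (HahnSeries.coeff_order_eq_zero.not.mpr hG0) h10
  rw [← h11]
  have hprim : IsPrimitiveRoot (zetaU 1 n : ℂˣ) n := by
    rw [← IsPrimitiveRoot.coe_units_iff]
    have := Complex.isPrimitiveRoot_exp n hn
    convert this using 1
    simp [zetaU]
  rw [(hprim.zpow_eq_one_iff_dvd _).mpr hkey, Units.val_one]

end Fermat.Agent.Cofaith
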