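import Fermat.Agent.Cofaith.Main
import Fermat.Agent.GalRep.JZ10_ES
import Fermat.Agent.HeckeComm.Commute
import Fermat.Agent.MW.Open
import Fermat.Agent.S22.Algebra

/-!
# Finiteness of the torsion of `J₀(N)` and finite level of the Galois action
-/

set_option autoImplicit false

open CongruenceSubgroup
open scoped MatrixGroups

noncomputable section

namespace Fermat.Agent.Cofaith

open Fermat.Agent.GalRep ModularCurve ModularCurve.Period Fermat.Agent.HeckePar
open Fermat.Agent.X0Emb AlgebraicCurve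

local notation "GQ" => (AlgebraicClosure ℚ ≃ₐ[ℚ] AlgebraicClosure ℚ)

/-- A finitely generated group has finitely many characters of order dividing `n`. -/
theorem finite_char (G : Type*) [Group G] [hG : Group.FG G] {n : ℕ} (hn : n ≠ 0) :
    Set.Finite {χ : G →* ℂˣ | χ ^ n = 1} := by
  classical
  obtain ⟨S, hS⟩ := Group.fg_iff.mp hG
  obtain ⟨hS1, hS2⟩ := hS
  haveI : Finite S := hS2.to_subtype
  haveI : NeZero n := ⟨hn⟩
  haveI hfin : Finite (S → rootsOfUnity n ℂ) := inferInstance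
  let f : {χ : G →* ℂˣ | χ ^ n = 1} → (S → rootsOfUnity n ℂ) := fun χ s =>
    ⟨χ.1 s, by
      rw [mem_rootsOfUnity]
      have h := χ.2
      rw [Set.mem_setOf_eq] at h
      rw [← MonoidHom.pow_apply, h, MonoidHom.one_apply]⟩
  have hf : Function.Injective f := by
    rintro ⟨χ, hχ⟩ ⟨ψ, hψ⟩ h
    refine Subtype.ext (MonoidHom.eq_of_eqOn_dense hS1 fun s hs => ?_)
    have h1 := congrFun h ⟨s, hs⟩
    exact congrArg Subtype.val h1
  haveI := Finite.of_injective f hf
  exact Set.toFinite _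

variable (N : ℕ) [NeZero N]

/-- **The torsion of `J₀(N)` is finite.** -/
theorem finite_torsion {n : ℕ} (hn : n ≠ 0) : Finite {x : JZero N // n • x = 0} := by
  classical
  haveI : Group.FG (Gamma0 N) := Fermat.Agent.S22alg.fg_Gamma0 N
  haveI := (finite_char (Gamma0 N) hn).to_subtype
  choose χ hχ using fun x : {x : JZero N // n • x = 0} => exists_rel N hn x.1 x.2
  let f : {x : JZero N // n • x = 0} → {χ : Gamma0 N →* ℂˣ | χ ^ n = 1} :=
    fun x => ⟨χ x, (hχ x).2.1⟩
  refine Finite.of_injective f fun x y h => Subtype.ext ?_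
  have h1 : χ x = χ y := congrArg Subtype.val h
  refine Rel.unique (bridge iota N) hn (hχ x).2.1 (hχ x).1 ?_
  rw [h1]
  exact (hχ y).1

theorem finite_torsion_set {n : ℕ} (hn : n ≠ 0) : Set.Finite {x : JZero N | n • x = 0} :=
  Set.finite_coe_iff.mp (finite_torsion N hn)

/-- Every class is fixed by the Galois group of a number field. -/
theorem exists_fixing_JZero (x : JZero N) :
    ∃ L : IntermediateField ℚ (AlgebraicClosure ℚ), FiniteDimensional ℚ L ∧
      ∀ σ ∈ L.fixingSubgroup, σ • x = x := by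
  haveI := isFF_bar N
  exact Fermat.Agent.MW.exists_fixing_pic0 (modularFunctionFieldFull N) x

/-- **Finite level**: the Galois group acts on `J₀(N)[n]` through a finite quotient. -/
theorem exists_level {n : ℕ} (hn : n ≠ 0) :
    ∃ L : IntermediateField ℚ (AlgebraicClosure ℚ), FiniteDimensional ℚ L ∧
      ∀ σ : GQ, (∀ x ∈ L, σ x = x) → ∀ x : JZero N, n • x = 0 → σ • x = x := by
  classical
  have key : ∀ s : Set (JZero N), s.Finite →
      ∃ L : IntermediateField ℚ (AlgebraicClosure ℚ), FiniteDimensional ℚ L ∧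
        ∀ σ ∈ L.fixingSubgroup, ∀ x ∈ s, σ • x = x := by
    intro s hs
    induction s, hs using Set.Finite.induction_on with
    | empty => exact ⟨⊥, inferInstance, fun σ _ x hx => absurd hx (Set.notMem_empty x)⟩
    | @insert a s _ _ ih =>
      obtain ⟨L, hL, h⟩ := ih
      obtain ⟨L', hL', h'⟩ := exists_fixing_JZero N a
      refine ⟨L ⊔ L', IntermediateField.finiteDimensional_sup L L', fun σ hσ x hx => ?_⟩
      rw [IntermediateField.fixingSubgroup_sup] at hσ
      rcases hx with rfl | hx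
      · exact h' σ hσ.2
      · exact h σ hσ.1 x hx
  obtain ⟨L, hL, h⟩ := key _ (finite_torsion_set N hn)
  refine ⟨L, hL, fun σ hσ x hx => h σ ?_ x hx⟩
  rw [IntermediateField.mem_fixingSubgroup_iff]
  exact hσ

/-- the stabiliser of a class contains an open subgroup -/
theorem exists_open (x : JZero N) :
    ∃ U : Subgroup GQ, IsOpen (U : Set GQ) ∧ ∀ σ ∈ U, σ • x = x := by
  obtain ⟨L, hL, h⟩ := exists_fixing_JZero N x
  exact ⟨L.fixingSubgroup, IntermediateField.fixingSubgroup_isOpen L, h⟩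

/-- all bridges outside the level -/
theorem heckeBridges (S : Set ℕ) (hNS : ∀ ℓ : ℕ, ℓ.Prime → ℓ ∣ N → ℓ ∈ S) :
    HeckeBridges iota N S := by
  intro ℓ hℓ
  haveI : Fact (ℓ : ℕ).Prime := ⟨ℓ.2⟩
  exact heckeBridge (ℓ : ℕ) fun h => hℓ (hNS _ ℓ.2 h)

/-- **Cofaithfulness**, unconditional form. -/
theorem cofaithful' : ∃ e : ℕ, e ≠ 0 ∧ ∀ (S : Set ℕ), (∀ ℓ : ℕ, ℓ.Prime → ℓ ∣ N → ℓ ∈ S) →
      ∀ t : HeckeAlgS S, evS N S t = 0 → ∀ n : ℕ, n ≠ 0 → ∀ x : JZero N, n • x = 0 →
        (letI := heckeModuleBar N; inclS S (e * t) • x) = 0 := by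
  obtain ⟨e, he, h⟩ := cofaithful N
  exact ⟨e, he, fun S hS t ht n hn x hx => h S (heckeBridges N S hS)
    (Fermat.Agent.HeckeComm.heckeOperatorsCommuteBar N) t ht n hn x hx⟩

end Fermat.Agent.Cofaith

end
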