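import Fermat.Agent.FF.Orbits
import Fermat.Agent.X0Emb.Embed
import Fermat.Agent.X0Emb.OrdAt
import Fermat.Agent.EisChar.Root
import Fermat.Agent.GalRep.JZ1_Kummer

/-!
# Divisibility of orders of a Kummer function on the upper half plane and at the cusps
-/

set_option autoImplicit false

open UpperHalfPlane Function Filter Topology AlgebraicCurve WithZero
open scoped Manifold MatrixGroups

noncomputable section

namespace Fermat.Agent.Cofaith

open Fermat.Agent.X0Emb Fermat.Agent.X0Deg Fermat.Agent.FFOrb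

section Abstract

variable {K F L : Type*} [Field K] [Field F] [Algebra K F] [Field L]

/-- If all orders of `h` at places are divisible by `n`, then the same holds for the orders along
any (possibly trivial or non-normalised) discrete valuation trivial on constants. -/
theorem dvd_of_forall_place (o : L → ℤ)
    (o_mul : ∀ f g : L, f ≠ 0 → g ≠ 0 → o (f * g) = o f + o g)
    (o_add : ∀ f g : L, f ≠ 0 → g ≠ 0 → f + g ≠ 0 → min (o f) (o g) ≤ o (f + g))
    (Ψ : F →+* L) (oK : ∀ c : K, c ≠ 0 → o (Ψ (algebraMap K F c)) = 0) {n : ℤ} {h : F}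
    (h0 : h ≠ 0) (hdvd : ∀ v : Place K F, n ∣ v.ord h) (r M : ℤ)
    (hM : ∀ f : F, f ≠ 0 → M ∣ r * o (Ψ f)) : M * n ∣ r * o (Ψ h) := by
  classical
  have hne : ∀ (f : F), f ≠ 0 → Ψ f ≠ 0 := fun f hf => by simpa using hf
  by_cases htriv : ∀ f : F, f ≠ 0 → o (Ψ f) = 0
  · rw [htriv h h0, mul_zero]
    exact dvd_zero _
  push Not at htriv
  obtain ⟨f, hf, hof⟩ := htriv
  have hinv : ∀ f : F, f ≠ 0 → o (Ψ f⁻¹) = -o (Ψ f) := by
    intro f hf
    have h1 := o_mul (Ψ f) (Ψ f⁻¹) (hne f hf) (hne _ (inv_ne_zero hf))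
    rw [← map_mul, mul_inv_cancel₀ hf] at h1
    have h2 := oK 1 one_ne_zero
    rw [map_one] at h2
    rw [h2] at h1
    omega
  set W := valOfOrd o o_mul o_add with hW
  have hWap : ∀ f : L, f ≠ 0 → W f = exp (-(o f)) := fun f hf => valOfOrd_apply o o_mul o_add hf
  set w : Valuation F ℤᵐ⁰ := W.comap Ψ with hw
  have hwap : ∀ f : F, f ≠ 0 → w f = exp (-(o (Ψ f))) := fun f hf => hWap _ (hne f hf)
  have hwK : ∀ a : K, w (algebraMap K F a) ≤ 1 := by
    intro c
    rcases eq_or_ne c 0 with rfl | hc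
    · simp
    · rw [hwap _ (by simpa using hc), oK c hc]
      simp
  have hwnt : ∃ f : F, f ≠ 0 ∧ w f < 1 := by
    rcases lt_or_gt_of_ne hof with hlt | hgt
    · refine ⟨f⁻¹, inv_ne_zero hf, ?_⟩
      rw [hwap _ (inv_ne_zero hf), hinv f hf, ← exp_zero, exp_lt_exp]
      omega
    · refine ⟨f, hf, ?_⟩
      rw [hwap _ hf, ← exp_zero, exp_lt_exp]
      omega
  obtain ⟨m, hm, hmf⟩ := exists_mult w hwK hwnt
  set v : Place K F := FFOrb.placeOf w hwK hwnt with hv
  have hord : ∀ f : F, f ≠ 0 → o (Ψ f) = m * v.ord f := by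
    intro f hf
    have h1 := hmf f hf
    rw [hwap f hf, exp_inj] at h1
    omega
  obtain ⟨ϖ, hϖ⟩ := IsDiscreteValuationRing.exists_irreducible v.toValuationSubring
  have hϖ0 : (ϖ : F) ≠ 0 := by
    simpa [ne_eq, ZeroMemClass.coe_eq_zero] using hϖ.ne_zero
  have h2 := hM ϖ hϖ0
  rw [hord _ hϖ0, v.ord_coe_irreducible hϖ, mul_one] at h2
  obtain ⟨k, hk⟩ := hdvd v
  obtain ⟨e, he⟩ := h2
  rw [hord h h0, hk]
  refine ⟨e * k, ?_⟩
  rw [← mul_assoc, he]
  ring

end Abstract

section Emb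

variable {K : Type*} [Field K] {F : IntermediateField K (LaurentSeries K)}
  {X : Type*} [MulAction SL(2, ℤ) X] {N : ℕ} (D : EmbData F X N)

/-- Orders on the upper half plane. -/
theorem dvd_ordAt {n : ℤ} {h : F} (h0 : h ≠ 0) (hdvd : ∀ v : Place K F, n ∣ v.ord h) (x : X)
    (τ : ℍ) : n ∣ ordAt τ (D.embM x h) := by
  have h1 := dvd_of_forall_place (ordAt τ) (ordAt_mul τ) (ordAt_add τ) (D.embM x) (fun c hc => by
    rw [D.embM_const]
    have hc' : D.ι c ≠ 0 := by simpa using hc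
    have hc2 : constHol (D.ι c) ≠ 0 := fun h => hc' (by
      have := congrArg (fun f : Hol => f UpperHalfPlane.I) h
      simpa using this)
    rw [ordAt_algebraMap τ hc2, ordH_const τ hc']
    simp) h0 hdvd 1 1 (fun f _ => one_dvd _)
  simpa using h1

theorem order_mul' {G G' : LaurentSeries ℂ} (h : G ≠ 0) (h' : G' ≠ 0) :
    (G * G').order = G.order + G'.order := HahnSeries.order_mul h h'

theorem order_add' {G G' : LaurentSeries ℂ} (_h : G ≠ 0) (_h' : G' ≠ 0) (h'' : G + G' ≠ 0) :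
    min G.order G'.order ≤ (G + G').order :=
  HahnSeries.min_order_le_order_add h''

/-- Orders at the cusps: if `T^r` fixes the coset `x`, `N n ∣ r ord`. -/
theorem dvd_order_embInf [NeZero N] {n : ℤ} {h : F} (h0 : h ≠ 0)
    (hdvd : ∀ v : Place K F, n ∣ v.ord h) (x : X) (r : ℕ)
    (hr : (ModularGroup.T ^ r : SL(2, ℤ)) • x = x) :
    (N : ℤ) * n ∣ r * (D.embInf x h).order := by
  have hN : (N : ℂ) ≠ 0 := by exact_mod_cast NeZero.ne N
  -- the translation acts on expansions
  have hT : ∀ (k : ℕ) (f : F) (i : ℤ), (D.embInf ((ModularGroup.T ^ k : SL(2, ℤ)) • x) f).coeff i =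
      (((zetaU 1 N)⁻¹ ^ (k * i) : ℂˣ) : ℂ) * (D.embInf x f).coeff i := by
    intro k f i
    induction k with
    | zero => simp
    | succ k ih =>
      rw [pow_succ', mul_smul, D.embInf_T, twist_coeff, ih, ← mul_assoc, ← Units.val_mul,
        ← zpow_add]
      congr 3
      push_cast
      ring
  have hprim : IsPrimitiveRoot ((zetaU 1 N)⁻¹ : ℂˣ) N := by
    rw [IsPrimitiveRoot.inv_iff, ← IsPrimitiveRoot.coe_units_iff]
    have := Complex.isPrimitiveRoot_exp N (NeZero.ne N)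
    convert this using 1
    simp [zetaU]
  refine dvd_of_forall_place (fun G : LaurentSeries ℂ => G.order) (fun f g hf hg => order_mul' hf hg)
    (fun f g hf hg hfg => order_add' hf hg hfg) (D.embInf x) (fun c hc => ?_) h0 hdvd r N
    (fun f hf => ?_)
  · show (D.embInf x (algebraMap K F c)).order = 0
    rw [D.embInf_const]
    exact HahnSeries.order_C
  · show (N : ℤ) ∣ r * (D.embInf x f).order
    have hf' : D.embInf x f ≠ 0 := by simpa using hf
    have h1 := hT r f (D.embInf x f).order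
    rw [hr] at h1
    have h2 : (D.embInf x f).coeff (D.embInf x f).order ≠ 0 :=
      HahnSeries.coeff_order_eq_zero.not.mpr hf'
    have h3 : (((zetaU 1 N)⁻¹ ^ (r * (D.embInf x f).order) : ℂˣ) : ℂ) = 1 := by
      have h4 : (1 : ℂ) * (D.embInf x f).coeff (D.embInf x f).order =
        (((zetaU 1 N)⁻¹ ^ (r * (D.embInf x f).order) : ℂˣ) : ℂ) *
          (D.embInf x f).coeff (D.embInf x f).order := by rw [one_mul]; exact h1
      exact (mul_right_cancel₀ h2 h4).symm
    exact (hprim.zpow_eq_one_iff_dvd _).mp (Units.ext (by simpa using h3))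

/-- `n`-th roots on the upper half plane. -/
theorem exists_root {n : ℕ} (hn : n ≠ 0) {a : D.A} (h0 : a ≠ 0)
    (hdvd : ∀ v : Place K F, (n : ℤ) ∣ v.ord (a : F)) (x : X) :
    ∃ g : ℍ → ℂ, MDiff g ∧ ∀ τ, g τ ^ n = D.embA x a τ := by
  have h1 : D.embA x a ≠ 0 := fun h => h0 (D.embA_inj x (by rw [h, map_zero]))
  refine Fermat.Agent.EisChar.exists_pow_eq n hn _ (Hol.mdiff _) (fun h => h1 (Subtype.ext h)) ?_
  intro τ
  have h2 := dvd_ordAt D (h := (a : F)) (fun h => h0 (Subtype.ext h)) hdvd x τ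
  rw [D.embM_coe, ordAt_algebraMap τ h1] at h2
  obtain ⟨m, hm⟩ : n ∣ (ordH τ (D.embA x a)).toNat := by exact_mod_cast h2
  refine ⟨m, ?_⟩
  rw [← hm]
  exact (ENat.natCast_toNat (ordH_ne_top τ h1)).symm

end Emb

end Fermat.Agent.Cofaith
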